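/-
P-DS / P-ES1 / ES1A-PL1 (row 561, helper32): germ embedding of the function field `X.F` of a
modular model `X = (Γ, F, R, j)` at an arbitrary point `z₀` of the upper half plane, into the
field of meromorphic germs at `z₀`, with the order valuation.

Port of `Fermat.Agent.H33.EsAPoint.pointEmbedding` (helper33) to an arbitrary model.
-/
import Fermat.Agent.H23.ES1A.Parts
import Fermat.Agent.H33.EsA.PointEmbedding

set_option autoImplicit false

noncomputable section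

open Filter Topology UpperHalfPlane
open scoped MatrixGroups Manifold

namespace Fermat.Agent.H32.ES1A

open Fermat.Agent.H23.ES1A Fermat.Agent.H44 Fermat.Agent.H33 Fermat.Agent.H33.EsAPoint

/-- The ring homomorphism from `X.R` to Laurent series. -/
def rToLaurent (X : Model) : ↥X.R →+* LaurentSeries ℂ :=
  (algebraMap ↥X.F (LaurentSeries ℂ)).comp (algebraMap ↥X.R ↥X.F)

lemma rToLaurent_apply (X : Model) (r : ↥X.R) :
    rToLaurent X r = ((r : ↥X.F) : LaurentSeries ℂ) := rfl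

/-- The data: a ring homomorphism from `X.R` to functions on `ℍ` representing the elements. -/
lemma exists_theta (X : Model) (hX : X.IsModular) :
    ∃ Θ : ↥X.R →+* (ℍ → ℂ), ∀ r : ↥X.R, Rep X (Θ r) (r : ↥X.F) := by
  have h := gen11_exists_lift (rToLaurent X) (fun r => by
    obtain ⟨h, hh, -⟩ := hX.rep (r : ↥X.F) r.2
    exact ⟨h, hh⟩)
  obtain ⟨Θ, hΘ⟩ := h
  exact ⟨Θ, fun r => hΘ r⟩

section Construction

variable {X : Model} (Θ : ↥X.R →+* (ℍ → ℂ))
  (hΘ : ∀ r : ↥X.R, Rep X (Θ r) (r : ↥X.F)) (z₀ : ℍ)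

include hΘ in
lemma theta_mdiff (r : ↥X.R) : MDiff (Θ r) := (hΘ r).mdifferentiable

include hΘ in
lemma theta_mer (r : ↥X.R) : MeromorphicAt (Θ r ∘ ofComplex) (z₀ : ℂ) :=
  meromorphicAt_comp_ofComplex (theta_mdiff Θ hΘ r) z₀

/-- The germ map on `X.R`. -/
def germHom : ↥X.R →+* MerGerm (z₀ : ℂ) where
  toFun r := merGerm (z₀ : ℂ) (Θ r ∘ ofComplex)
  map_one' := by
    rw [map_one]
    exact merGerm_one _
  map_zero' := by
    rw [map_zero]
    exact merGerm_zero _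
  map_mul' := by
    intro a b
    rw [map_mul, ← merGerm_mul _ _ _ (theta_mer Θ hΘ z₀ a) (theta_mer Θ hΘ z₀ b)]
    rfl
  map_add' := by
    intro a b
    rw [map_add, ← merGerm_add _ _ _ (theta_mer Θ hΘ z₀ a) (theta_mer Θ hΘ z₀ b)]
    rfl

lemma germHom_apply (r : ↥X.R) :
    germHom Θ hΘ z₀ r = merGerm (z₀ : ℂ) (Θ r ∘ ofComplex) := rfl

lemma germHom_injective : Function.Injective (germHom Θ hΘ z₀) := by
  rw [injective_iff_map_eq_zero]
  intro r hr
  rw [germHom_apply, ← merGerm_zero] at hr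
  have h0 := (merGerm_eq_iff _ _ _ (theta_mer Θ hΘ z₀ r) (MeromorphicAt.const 0 _)).1 hr
  have hz : Θ r = 0 := eq_zero_of_eventually_eq_zero (theta_mdiff Θ hΘ r) z₀ h0
  have h1 : Rep X (0 : ℍ → ℂ) (r : ↥X.F) := hz ▸ hΘ r
  have h2 : ((r : ↥X.F) : LaurentSeries ℂ) = 0 :=
    LaurentRel.unique_right h1 laurentRel_zero
  exact Subtype.ext (Subtype.ext h2)

include hΘ in
/-- Representing functions are unique. -/
lemma theta_eq_of_rep (r : ↥X.R) {h : ℍ → ℂ} (hr : Rep X h (r : ↥X.F)) : Θ r = h :=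
  LaurentRel.unique_left (hΘ r) hr

include hΘ in
lemma theta_const (c : ℂ) : Θ (algebraMap ℂ ↥X.R c) = fun _ => c := by
  apply theta_eq_of_rep Θ hΘ
  have h := laurentRel_const c
  have e : (((algebraMap ℂ ↥X.R c : ↥X.R) : ↥X.F) : LaurentSeries ℂ)
      = HahnSeries.C c := by
    have e1 : (((algebraMap ℂ ↥X.R c : ↥X.R) : ↥X.F) : LaurentSeries ℂ)
        = algebraMap ℂ (LaurentSeries ℂ) c := rfl
    have h1 : algebraMap ℂ (PowerSeries ℂ) c = PowerSeries.C c := by simp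
    rw [e1, HahnSeries.algebraMap_apply', h1, HahnSeries.ofPowerSeries_C]
  unfold Fermat.Agent.H23.ES1A.Rep
  rw [e]
  exact h

end Construction

lemma isFractionRing_R (X : Model) (hX : X.IsModular) :
    IsFractionRing ↥X.R ↥X.F := by
  apply IsFractionRing.of_field
  intro f
  obtain ⟨r, s, hr, hs, hs0, hfs⟩ := hX.frac f
  refine ⟨⟨r, hr⟩, ⟨s, hs⟩, ?_⟩
  change f = r / s
  rw [eq_div_iff hs0]
  exact hfs

/-- **ES1A-PL1**: the germ embedding at an arbitrary point of `ℍ`, for a modular model. -/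
theorem pointEmbedding (X : Model) (hX : X.IsModular) : PointEmbeddingStatement X := by
  intro z₀
  obtain ⟨Θ, hΘ⟩ := exists_theta X hX
  have : IsFractionRing ↥X.R ↥X.F := isFractionRing_R X hX
  have hinj := germHom_injective Θ hΘ z₀
  let σ : ↥X.F →+* MerGerm (z₀ : ℂ) := IsFractionRing.lift hinj
  have hσ : ∀ r : ↥X.R, σ (r : ↥X.F) = germHom Θ hΘ z₀ r := fun r =>
    IsFractionRing.lift_algebraMap hinj r
  refine ⟨MerGerm (z₀ : ℂ), inferInstance, merVal (z₀ : ℂ), σ, ?_, ?_⟩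
  · intro c hc
    have h1 : algebraMap ℂ ↥X.F c = ((algebraMap ℂ ↥X.R c : ↥X.R) : ↥X.F) := rfl
    rw [h1, hσ, germHom_apply, theta_const Θ hΘ c]
    have h2 : ((fun _ : ℍ => c) ∘ ofComplex) = fun _ : ℂ => c := rfl
    rw [h2, merVal_germ _ _ (MeromorphicAt.const c _)]
    classical
    rw [meromorphicOrderAt_const, if_neg hc]
  · intro f h hf hrep
    obtain ⟨r, s, hr, hs, hs0, hfs⟩ := hX.frac f
    have hmd : MDiff h := LaurentRel.mdifferentiable hrep
    have hmer := meromorphicAt_comp_ofComplex hmd z₀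
    -- `h * Θ s` represents `r`
    have hrep2 : Rep X (h * Θ ⟨s, hs⟩) r := by
      have := LaurentRel.mul hrep (hΘ ⟨s, hs⟩)
      have e : ((r : ↥X.F) : LaurentSeries ℂ) = (f : LaurentSeries ℂ) * (s : LaurentSeries ℂ) := by
        rw [← hfs]; rfl
      unfold Fermat.Agent.H23.ES1A.Rep
      rw [e]
      exact this
    have hΘr : Θ ⟨r, hr⟩ = h * Θ ⟨s, hs⟩ := theta_eq_of_rep Θ hΘ ⟨r, hr⟩ hrep2
    have hs' : germHom Θ hΘ z₀ ⟨s, hs⟩ ≠ 0 := by
      intro h0
      have := hinj (h0.trans (map_zero _).symm)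
      exact hs0 (congrArg Subtype.val this)
    have hσf : σ f * germHom Θ hΘ z₀ ⟨s, hs⟩ = merGerm (z₀ : ℂ) (h ∘ ofComplex) *
        germHom Θ hΘ z₀ ⟨s, hs⟩ := by
      rw [← hσ ⟨s, hs⟩, ← map_mul]
      have e1 : f * ((⟨s, hs⟩ : ↥X.R) : ↥X.F) = ((⟨r, hr⟩ : ↥X.R) : ↥X.F) := hfs
      rw [e1, hσ, hσ, germHom_apply, germHom_apply, hΘr,
        ← merGerm_mul _ _ _ hmer (theta_mer Θ hΘ z₀ ⟨s, hs⟩)]
      rfl
    have hσf' : σ f = merGerm (z₀ : ℂ) (h ∘ ofComplex) := mul_right_cancel₀ hs' hσf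
    rw [hσf', merVal_germ _ _ hmer]

end Fermat.Agent.H32.ES1A

end
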